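import Mathlib
import Fermat.Agent.S13.Defs
import Fermat.Prelude.Def_FLTPrelim_GaloisRep

/-!
# S13, block Glue (owner helper13): a finite set of points of the Frey curve over `ℚ̄` is defined
over a finite extension of `ℚ`

FROZEN STATEMENT (replace the `sorry` only; add helper lemmas freely above it).

`E := IntermediateField.adjoin ℚ (the coordinates of the affine points in T)`; it is
finite-dimensional (`IntermediateField.finiteDimensional_adjoin`, every element of `ℚ̄` is
integral over `ℚ`), and an automorphism fixing `E` fixes every point of `T`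
(`σ • Q = Point.map σ.toAlgHom Q` by `algEquiv_smul_def`; `Point.map` on `zero` / `some`).
-/

set_option autoImplicit false

open WeierstrassCurve WeierstrassCurve.Affine WeierstrassCurve.Affine.Point

namespace Fermat.Agent.S13.Glue

open Fermat.Agent.S05 (freyQb)

/-- The set of coordinates of a point (empty for the point at infinity). -/
def exists_field_coords (P : FreyPackage) : (freyQb P).Point → Set Qb
  | .zero => ∅
  | .some x y _ => {x, y}

theorem exists_field_coords_finite (P : FreyPackage) (Q : (freyQb P).Point) :
    (exists_field_coords P Q).Finite := by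
  cases Q with
  | zero => exact Set.finite_empty
  | some x y h => exact Set.toFinite {x, y}

theorem exists_field (P : FreyPackage) (T : Set (freyQb P).Point) (hT : T.Finite) :
    ∃ E : IntermediateField ℚ Qb, FiniteDimensional ℚ E ∧
      ∀ σ : Gal, σ ∈ E.fixingSubgroup → ∀ Q ∈ T, σ • Q = Q := by
  have hS : (⋃ Q ∈ T, exists_field_coords P Q).Finite :=
    hT.biUnion fun Q _ => exists_field_coords_finite P Q
  have : Finite (⋃ Q ∈ T, exists_field_coords P Q : Set Qb) := hS.to_subtype
  have halg : Algebra.IsAlgebraic ℚ Qb := AlgebraicClosure.isAlgebraic ℚ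
  refine ⟨IntermediateField.adjoin ℚ (⋃ Q ∈ T, exists_field_coords P Q),
    IntermediateField.finiteDimensional_adjoin fun x _ => (Algebra.IsAlgebraic.isAlgebraic (R := ℚ) x).isIntegral, ?_⟩
  intro σ hσ Q hQ
  have hfix : ∀ x ∈ exists_field_coords P Q, σ x = x := by
    intro x hx
    exact (IntermediateField.mem_fixingSubgroup_iff _ σ).mp hσ x
      (IntermediateField.subset_adjoin ℚ _ (Set.mem_biUnion hQ hx))
  rw [algEquiv_smul_def]
  cases Q with
  | zero => rfl
  | some x y h =>
    have hx : σ x = x := hfix x (Set.mem_insert x {y})
    have hy : σ y = y := hfix y (Set.mem_insert_of_mem x rfl)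
    rw [Point.map_some]
    exact (Point.some.injEq ..).mpr ⟨hx, hy⟩

end Fermat.Agent.S13.Glue
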