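import Mathlib

/-!
# S13, block Glue (owner helper13): linear algebra over `ZMod p` in dimension `≤ 2`

FROZEN STATEMENTS (replace the `sorry`s only; add helper lemmas freely above them).

`V` is a finite `ZMod p`-vector space with at most `p²` elements and `N` a submodule different
from `⊥` and `⊤`.  Then `N` has exactly `p` elements (`V` has dimension `2`, `N` is a line), and
every additive endomorphism `s` of `V` with `s N ⊆ N` and `(s - 1)² = 0` is the identity on `N`
and on `V / N`.
Proof of the second statement: `N = span {x₀}`; `s x₀ = c • x₀` and `(s-1)² x₀ = (c-1)² • x₀ = 0`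
give `c = 1`.  For `y : V` put `z = s y - y`; then `s z = z`.  If `z ∉ N` then `N ⊔ span {z} = ⊤`
(cardinality `p²`), so `s` is the identity on `V` (additive maps are `ZMod p`-linear:
`ZMod.map_smul`), hence `z = 0 ∈ N`, a contradiction.
-/

set_option autoImplicit false

namespace Fermat.Agent.S13.Glue

/-- `N` is a line in the plane `V`. -/
theorem linalg_finrank {p : ℕ} [Fact p.Prime] {V : Type*} [AddCommGroup V] [Module (ZMod p) V]
    [Finite V] (hV : Nat.card V ≤ p ^ 2) (N : Submodule (ZMod p) V) (h0 : N ≠ ⊥) (h1 : N ≠ ⊤) :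
    Module.finrank (ZMod p) N = 1 ∧ Module.finrank (ZMod p) V = 2 := by
  have hp : p.Prime := Fact.out
  have hfin : Module.Finite (ZMod p) V := Module.Finite.of_finite
  have hcard : Nat.card V = p ^ Module.finrank (ZMod p) V := by
    rw [Module.natCard_eq_pow_finrank (K := ZMod p), Nat.card_zmod]
  have h2 : Module.finrank (ZMod p) V ≤ 2 := by
    rw [hcard] at hV
    exact (Nat.pow_le_pow_iff_right hp.one_lt).mp hV
  have h3 : Module.finrank (ZMod p) N < Module.finrank (ZMod p) V := Submodule.finrank_lt h1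
  have h4 : Module.finrank (ZMod p) N ≠ 0 := by
    intro h
    exact h0 (Submodule.finrank_eq_zero.mp h)
  omega

theorem linalg_card {p : ℕ} [Fact p.Prime] {V : Type*} [AddCommGroup V] [Module (ZMod p) V]
    [Finite V] (hV : Nat.card V ≤ p ^ 2) (N : Submodule (ZMod p) V) (h0 : N ≠ ⊥) (h1 : N ≠ ⊤) :
    Nat.card N = p := by
  have h := (linalg_finrank hV N h0 h1).1
  rw [Module.natCard_eq_pow_finrank (K := ZMod p), Nat.card_zmod, h, pow_one]

theorem linalg_unipotent {p : ℕ} [Fact p.Prime] {V : Type*} [AddCommGroup V] [Module (ZMod p) V]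
    [Finite V] (hV : Nat.card V ≤ p ^ 2) (N : Submodule (ZMod p) V) (h0 : N ≠ ⊥) (h1 : N ≠ ⊤)
    (s : V →+ V) (hs : ∀ x ∈ N, s x ∈ N) (hu : ∀ y : V, s (s y - y) = s y - y) :
    (∀ x ∈ N, s x = x) ∧ ∀ y : V, s y - y ∈ N := by
  obtain ⟨hN1, hV2⟩ := linalg_finrank hV N h0 h1
  have hfin : Module.Finite (ZMod p) V := Module.Finite.of_finite
  have hsm : ∀ (c : ZMod p) (x : V), s (c • x) = c • s x := fun c x => ZMod.map_smul s c x
  -- part 1
  have part1 : ∀ x ∈ N, s x = x := by
    obtain ⟨⟨x₀, hx₀N⟩, hx₀, hgen⟩ := (finrank_eq_one_iff' (K := ZMod p) (V := N)).mp hN1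
    have hx₀' : x₀ ≠ 0 := fun h => hx₀ (Subtype.ext h)
    have hgen' : ∀ w ∈ N, ∃ c : ZMod p, c • x₀ = w := by
      intro w hw
      obtain ⟨c, hc⟩ := hgen ⟨w, hw⟩
      exact ⟨c, congrArg Subtype.val hc⟩
    obtain ⟨c, hc⟩ := hgen' (s x₀) (hs x₀ hx₀N)
    have h5 : ((c - 1) * (c - 1)) • x₀ = 0 := by
      have h6 := hu x₀
      rw [← hc] at h6
      have h7 : c • x₀ - x₀ = (c - 1) • x₀ := by rw [sub_smul, one_smul]
      rw [h7, hsm, ← hc, smul_smul] at h6
      rw [mul_sub, sub_smul, h6, mul_one, sub_self]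
    have hc1 : c = 1 := by
      rcases smul_eq_zero.mp h5 with h | h
      · rcases mul_self_eq_zero.mp h with h
        exact sub_eq_zero.mp h
      · exact absurd h hx₀'
    have hsx₀ : s x₀ = x₀ := by rw [← hc, hc1, one_smul]
    intro x hx
    obtain ⟨d, rfl⟩ := hgen' x hx
    rw [hsm, hsx₀]
  refine ⟨part1, ?_⟩
  intro y
  by_contra hz
  set f : V →ₗ[ZMod p] V := AddMonoidHom.toZModLinearMap p s - LinearMap.id with hf
  have hfx : ∀ v, f v = s v - v := fun v => rfl
  have hNker : N ≤ LinearMap.ker f := by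
    intro x hx
    rw [LinearMap.mem_ker, hfx, part1 x hx, sub_self]
  have hzker : s y - y ∈ LinearMap.ker f := by
    rw [LinearMap.mem_ker, hfx, hu y, sub_self]
  have hlt : N < LinearMap.ker f := lt_of_le_of_ne hNker (fun h => hz (h ▸ hzker))
  have h8 := Submodule.finrank_lt_finrank_of_lt hlt
  have h9 : Module.finrank (ZMod p) (LinearMap.ker f) ≤ Module.finrank (ZMod p) V :=
    Submodule.finrank_le _
  have htop : LinearMap.ker f = ⊤ := Submodule.eq_top_of_finrank_eq (by omega)
  have hy : y ∈ LinearMap.ker f := htop ▸ Submodule.mem_top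
  rw [LinearMap.mem_ker, hfx] at hy
  exact hz (hy ▸ N.zero_mem)

end Fermat.Agent.S13.Glue
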