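import Mathlib

/-!
# S13, block Glue (owner helper13): the two normal subgroups attached to a stable subgroup

`G` acts on the additive group `V`, `N` is a `G`-stable subgroup.
* `fixer N` : the elements of `G` acting trivially on `N`;
* `cofixer N hN` : the elements of `G` acting trivially on `V / N`.
Both are normal subgroups of `G`.
-/

set_option autoImplicit false

namespace Fermat.Agent.S13.Glue

variable {G V : Type*} [Group G] [AddCommGroup V] [DistribMulAction G V]

/-- The subgroup of elements acting trivially on `N`. -/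
def fixer (N : AddSubgroup V) : Subgroup G where
  carrier := {g | ∀ x ∈ N, g • x = x}
  one_mem' := fun x _ => one_smul G x
  mul_mem' := by
    intro a b ha hb x hx
    rw [mul_smul, hb x hx, ha x hx]
  inv_mem' := by
    intro a ha x hx
    rw [inv_smul_eq_iff, ha x hx]

theorem mem_fixer {N : AddSubgroup V} {g : G} : g ∈ fixer (G := G) N ↔ ∀ x ∈ N, g • x = x :=
  Iff.rfl

theorem fixer_normal (N : AddSubgroup V) (hN : ∀ (g : G) (x : V), x ∈ N → g • x ∈ N) :
    (fixer (G := G) N).Normal := by
  constructor
  intro n hn g x hx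
  have h1 : g⁻¹ • x ∈ N := hN g⁻¹ x hx
  rw [mul_smul, mul_smul, hn _ h1, smul_inv_smul]

/-- The subgroup of elements acting trivially on `V / N`. -/
def cofixer (N : AddSubgroup V) (hN : ∀ (g : G) (x : V), x ∈ N → g • x ∈ N) : Subgroup G where
  carrier := {g | ∀ x : V, g • x - x ∈ N}
  one_mem' := fun x => by simp
  mul_mem' := by
    intro a b ha hb x
    have h1 : (a * b) • x - x = a • (b • x - x) + (a • x - x) := by
      rw [mul_smul, smul_sub]; abel
    rw [h1]
    exact N.add_mem (hN a _ (hb x)) (ha x)
  inv_mem' := by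
    intro a ha x
    have h1 : a⁻¹ • x - x = -(a • (a⁻¹ • x) - a⁻¹ • x) := by
      rw [smul_inv_smul]; abel
    rw [h1]
    exact N.neg_mem (ha _)

theorem mem_cofixer {N : AddSubgroup V} {hN : ∀ (g : G) (x : V), x ∈ N → g • x ∈ N} {g : G} :
    g ∈ cofixer N hN ↔ ∀ x : V, g • x - x ∈ N :=
  Iff.rfl

theorem cofixer_normal (N : AddSubgroup V) (hN : ∀ (g : G) (x : V), x ∈ N → g • x ∈ N) :
    (cofixer N hN).Normal := by
  constructor
  intro n hn g x
  have h1 : (g * n * g⁻¹) • x - x = g • (n • (g⁻¹ • x) - g⁻¹ • x) := by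
    rw [mul_smul, mul_smul, smul_sub, smul_inv_smul]
  rw [h1]
  exact hN g _ (hn _)

end Fermat.Agent.S13.Glue
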