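import Fermat.Agent.S13.Iface.Ladder
import Fermat.Agent.S13.Iface.PAdic
import Fermat.Agent.S13.Iface.TwoAdic
import Fermat.Agent.S13.Iface.Mink
import Fermat.Agent.S05.Final
import Fermat.Agent.S54_Frob
import Fermat.Agent.S13.Glue.LinAlg
import Fermat.Agent.S13.Glue.Field
import Fermat.Agent.S13.Glue.Subgroups
import Fermat.Prelude.Def_FLTPrelim_CofixedLine

/-!
# S13, block Glue (owner helper13): the final statement from the interfaces
-/

set_option autoImplicit false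

open WeierstrassCurve WeierstrassCurve.Affine WeierstrassCurve.Affine.Point
open FreyPackage

namespace Fermat.Agent.S13

open Fermat.Agent.S05 (freyQb)

/-- The `p`-torsion module of the Frey curve over `ℚ̄`. -/
abbrev TV (P : FreyPackage) : Type := Submodule.torsionBy ℤ (freyQb P).Point P.p

theorem mem_TV_iff (P : FreyPackage) (Q : (freyQb P).Point) :
    Q ∈ Submodule.torsionBy ℤ (freyQb P).Point P.p ↔ P.p • Q = 0 := by
  rw [Submodule.mem_torsionBy_iff, natCast_zsmul]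

theorem TV_smul_coe (P : FreyPackage) (σ : Gal) (x : TV P) :
    ((σ • x : TV P) : (freyQb P).Point) = σ • (x : (freyQb P).Point) := rfl

/-- `V` is finite with at most `p²` elements. -/
theorem TV_finite_card (P : FreyPackage) : Finite (TV P) ∧ Nat.card (TV P) ≤ P.p ^ 2 := by
  obtain ⟨hfin, hcard⟩ := torsion_finite P
  have e : TV P ≃ {Q : (freyQb P).Point | P.p • Q = 0} :=
    Equiv.subtypeEquivRight (fun Q => mem_TV_iff P Q)
  have : Finite {Q : (freyQb P).Point | P.p • Q = 0} := hfin.to_subtype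
  refine ⟨Finite.of_equiv _ e.symm, ?_⟩
  rw [Nat.card_congr e]
  exact (Nat.card_coe_set_eq _).le.trans hcard

theorem sub_mem_of_eq {V : Type*} [AddCommGroup V] (N : AddSubgroup V) {a b : V} (h : a = b) :
    a - b ∈ N := by
  rw [h, sub_self]
  exact N.zero_mem

/-- A Galois-stable line `N0` with trivial action of an inertia group at every prime:
the two possible conclusions. -/
theorem glue_aux (P : FreyPackage) (N0 : Submodule (ZMod P.p) (TV P))
    (hstab : IsGaloisStable ℚ N0) (h0 : N0 ≠ ⊥) (h1 : N0 ≠ ⊤) :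
    ∃ N : Submodule (ZMod P.p) (TV P), IsGaloisStable ℚ N ∧ N ≠ ⊥ ∧ N ≠ ⊤ ∧
      ∀ σ : Gal, ∀ x : TV P, σ • x - x ∈ N := by
  have : Fact P.p.Prime := ⟨P.pp⟩
  obtain ⟨hVfin, hVcard⟩ := TV_finite_card P
  -- the stable subgroup
  have hN : ∀ (g : Gal) (x : TV P), x ∈ N0.toAddSubgroup → g • x ∈ N0.toAddSubgroup :=
    fun g x hx => hstab g x hx
  let K1 : Subgroup Gal := Glue.fixer N0.toAddSubgroup
  let K2 : Subgroup Gal := Glue.cofixer N0.toAddSubgroup hN
  have hK1n : K1.Normal := Glue.fixer_normal _ hN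
  have hK2n : K2.Normal := Glue.cofixer_normal _ hN
  -- the field of definition
  obtain ⟨hfin, -⟩ := torsion_finite P
  obtain ⟨E, hEfin, hE⟩ := Glue.exists_field P _ hfin
  have hfix : ∀ σ : Gal, σ ∈ E.fixingSubgroup → ∀ x : TV P, σ • x = x := by
    intro σ hσ x
    apply Subtype.ext
    rw [TV_smul_coe]
    exact hE σ hσ x.1 ((mem_TV_iff P x.1).mp x.2)
  have hE1 : E.fixingSubgroup ≤ K1 := fun σ hσ x _ => hfix σ hσ x
  have hE2 : E.fixingSubgroup ≤ K2 := by
    intro σ hσ x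
    exact sub_mem_of_eq _ (hfix σ hσ x)
  -- primes different from `2` and `p`
  have hodd : ∀ ℓ : ℕ, ℓ.Prime → ℓ ≠ 2 → ℓ ≠ P.p →
      ∃ A : ValuationSubring Qb, A.LiesOverPrime ℓ ∧ A.inertiaSubgroupIn ℚ ≤ K1 ⊓ K2 := by
    intro ℓ hℓ h2 hp
    obtain ⟨A, hA⟩ := Fermat.Agent.S54.exists_valuationSubring_liesOver ℓ hℓ
    refine ⟨A, hA, ?_⟩
    intro σ hσ
    have h := Fermat.Agent.S05.final P hℓ h2 hp A hA σ hσ
    exact ⟨fun x _ => h x, fun x => sub_mem_of_eq _ (h x)⟩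
  -- the prime `2`
  have htwo : ∃ A : ValuationSubring Qb, A.LiesOverPrime 2 ∧ A.inertiaSubgroupIn ℚ ≤ K1 ⊓ K2 := by
    obtain ⟨A, hA⟩ := Fermat.Agent.S54.exists_valuationSubring_liesOver 2 Nat.prime_two
    refine ⟨A, hA, ?_⟩
    intro σ hσ
    let s : TV P →+ TV P := DistribSMul.toAddMonoidHom (TV P) σ
    have hs : ∀ x ∈ N0, s x ∈ N0 := fun x hx => hstab σ x hx
    have hu : ∀ y : TV P, s (s y - y) = s y - y := by
      intro y
      apply Subtype.ext
      exact two_unipotent P A hA σ hσ y.1 ((mem_TV_iff P y.1).mp y.2)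
    obtain ⟨ha, hb⟩ := Glue.linalg_unipotent hVcard N0 h0 h1 s hs hu
    exact ⟨fun x hx => ha x hx, fun x => hb x⟩
  -- the subgroup of points
  let N0' : AddSubgroup (freyQb P).Point :=
    N0.toAddSubgroup.map (Submodule.torsionBy ℤ (freyQb P).Point P.p).subtype.toAddMonoidHom
  have hN0'mem : ∀ Q : (freyQb P).Point, Q ∈ N0' ↔ ∃ x : TV P, x ∈ N0 ∧ (x : (freyQb P).Point) = Q := by
    intro Q
    exact AddSubgroup.mem_map
  have hNp : ∀ Q ∈ N0', P.p • Q = 0 := by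
    intro Q hQ
    obtain ⟨x, -, rfl⟩ := (hN0'mem Q).mp hQ
    exact (mem_TV_iff P x.1).mp x.2
  have hcard' : Nat.card N0' = P.p := by
    rw [← Glue.linalg_card hVcard N0 h0 h1]
    exact (Nat.card_congr (N0.toAddSubgroup.equivMapOfInjective _
      (Submodule.torsionBy ℤ (freyQb P).Point P.p).injective_subtype).toEquiv).symm
  have hstab' : ∀ (σ : Gal) (Q : (freyQb P).Point), Q ∈ N0' → σ • Q ∈ N0' := by
    intro σ Q hQ
    obtain ⟨x, hx, rfl⟩ := (hN0'mem Q).mp hQ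
    exact (hN0'mem _).mpr ⟨σ • x, hstab σ x hx, rfl⟩
  -- the prime `p`
  obtain ⟨A0, hA0⟩ := Fermat.Agent.S54.exists_valuationSubring_liesOver P.p P.pp
  have hall : ∀ (K : Subgroup Gal), K1 ⊓ K2 ≤ K → A0.inertiaSubgroupIn ℚ ≤ K →
      ∀ ℓ : ℕ, ℓ.Prime → ∃ A : ValuationSubring Qb, A.LiesOverPrime ℓ ∧
        A.inertiaSubgroupIn ℚ ≤ K := by
    intro K hK hKp ℓ hℓ
    by_cases hp : ℓ = P.p
    · subst hp
      exact ⟨A0, hA0, hKp⟩
    · by_cases h2 : ℓ = 2
      · subst h2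
        obtain ⟨A, hA, hAK⟩ := htwo
        exact ⟨A, hA, hAK.trans hK⟩
      · obtain ⟨A, hA, hAK⟩ := hodd ℓ hℓ h2 hp
        exact ⟨A, hA, hAK.trans hK⟩
  rcases padic_dichotomy P A0 hA0 N0' hNp hcard' hstab' with hp2 | hp1
  · -- inertia at `p` acts trivially on `V / N0`
    have hI : A0.inertiaSubgroupIn ℚ ≤ K2 := by
      intro σ hσ x
      obtain ⟨z, hz, hzx⟩ := (hN0'mem _).mp (hp2 σ hσ x.1 ((mem_TV_iff P x.1).mp x.2))
      have : σ • x - x = z := Subtype.ext hzx.symm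
      rw [this]
      exact hz
    have htop : K2 = ⊤ := mink K2 hK2n E hE2 (hall K2 inf_le_right hI)
    refine ⟨N0, hstab, h0, h1, fun σ x => ?_⟩
    have : σ ∈ K2 := htop ▸ Subgroup.mem_top σ
    exact this x
  · -- inertia at `p` acts trivially on `N0`: impossible
    exfalso
    have hI : A0.inertiaSubgroupIn ℚ ≤ K1 := by
      intro σ hσ x hx
      apply Subtype.ext
      rw [TV_smul_coe]
      exact hp1 σ hσ x.1 ((hN0'mem _).mpr ⟨x, hx, rfl⟩)
    have htop : K1 = ⊤ := mink K1 hK1n E hE1 (hall K1 inf_le_left hI)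
    obtain ⟨x, hx, hx0⟩ := Submodule.exists_mem_ne_zero_of_ne_bot h0
    apply hx0
    apply Subtype.ext
    refine no_rational_torsion P x.1 ((mem_TV_iff P x.1).mp x.2) (fun σ => ?_)
    have : σ ∈ K1 := htop ▸ Subgroup.mem_top σ
    have h2 := this x hx
    rw [← TV_smul_coe, h2]

theorem glue (P : FreyPackage)
    (hred : ¬ GaloisRepIsIrreducible (K := AlgebraicClosure ℚ) ℚ P.freyCurve P.p) :
    HasGaloisStableCofixedLine (K := AlgebraicClosure ℚ) ℚ P.freyCurve P.p := by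
  have hnt : Nontrivial (TV P) := by
    obtain ⟨Q, hQ0, hQ⟩ := exists_torsion P
    refine ⟨⟨⟨Q, (mem_TV_iff P Q).mpr hQ⟩, 0, ?_⟩⟩
    intro h
    exact hQ0 (congrArg Subtype.val h)
  have hex : ∃ N0 : Submodule (ZMod P.p) (TV P), IsGaloisStable ℚ N0 ∧ N0 ≠ ⊥ ∧ N0 ≠ ⊤ := by
    by_contra hcon
    apply hred
    refine ⟨hnt, fun N hN => ?_⟩
    by_contra hN2
    rw [not_or] at hN2
    exact hcon ⟨N, hN, hN2.1, hN2.2⟩
  obtain ⟨N0, hstab, h0, h1⟩ := hex
  exact glue_aux P N0 hstab h0 h1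

end Fermat.Agent.S13
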