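import Mathlib
import Fermat.Agent.S13.Defs
import Fermat.Prelude.Def_FLTPrelim_GaloisRep

/-!
# S13, block Glue (hedge copy): a finite set of points of the Frey curve over `ℚ̄` is defined
over a finite extension of `ℚ`
-/

set_option autoImplicit false

open WeierstrassCurve WeierstrassCurve.Affine WeierstrassCurve.Affine.Point

namespace Fermat.Agent.S13.GlueAlt

open Fermat.Agent.S05 (freyQb)

/-- The set of coordinates of a point. -/
def exists_field_coords (P : FreyPackage) : (freyQb P).Point → Set Qb
  | .zero => ∅
  | .some x y _ => {x, y}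

theorem exists_field_coords_finite (P : FreyPackage) (Q : (freyQb P).Point) :
    (exists_field_coords P Q).Finite := by
  cases Q with
  | zero => exact Set.finite_empty
  | some x y h => exact Set.toFinite {x, y}

theorem exists_field_smul_eq (P : FreyPackage) (σ : Gal) (Q : (freyQb P).Point)
    (h : ∀ x ∈ exists_field_coords P Q, σ x = x) : σ • Q = Q := by
  rw [algEquiv_smul_def]
  cases Q with
  | zero => rfl
  | some x y hxy =>
    have hx : σ x = x := h x (Set.mem_insert _ _)
    have hy : σ y = y := h y (Set.mem_insert_of_mem _ rfl)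
    rw [Point.map_some]
    congr 1

theorem exists_field_isAlgebraic : Algebra.IsAlgebraic ℚ Qb := by
  have h := AlgebraicClosure.isAlgebraic ℚ
  have e : (DivisionRing.toRatAlgebra : Algebra ℚ Qb) = AlgebraicClosure.instAlgebra ℚ :=
    Subsingleton.elim _ _
  rw [e]
  exact h

theorem exists_field (P : FreyPackage) (T : Set (freyQb P).Point) (hT : T.Finite) :
    ∃ E : IntermediateField ℚ Qb, FiniteDimensional ℚ E ∧
      ∀ σ : Gal, σ ∈ E.fixingSubgroup → ∀ Q ∈ T, σ • Q = Q := by
  have hS : (⋃ Q ∈ T, exists_field_coords P Q).Finite :=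
    hT.biUnion fun Q _ => exists_field_coords_finite P Q
  refine ⟨IntermediateField.adjoin ℚ (⋃ Q ∈ T, exists_field_coords P Q), ?_, ?_⟩
  · have : Finite (⋃ Q ∈ T, exists_field_coords P Q) := hS.to_subtype
    exact IntermediateField.finiteDimensional_adjoin
      fun x _ => (exists_field_isAlgebraic.isAlgebraic x).isIntegral
  · intro σ hσ Q hQ
    rw [IntermediateField.mem_fixingSubgroup_iff] at hσ
    refine exists_field_smul_eq P σ Q fun x hx => ?_
    exact hσ x (IntermediateField.subset_adjoin ℚ _ (Set.mem_biUnion hQ hx))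

end Fermat.Agent.S13.GlueAlt
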