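import Mathlib

/-!
# S13, block Glue: linear algebra over `ZMod p` in dimension `≤ 2` (independent proof)

Same statements as `Fermat/Agent/S13/Glue/LinAlg.lean`, in namespace `Fermat.Agent.S13.GlueAlt`.
-/

set_option autoImplicit false

namespace Fermat.Agent.S13.GlueAlt

/-- Helper: under the hypotheses, `N` is a line in the plane `V`. -/
theorem linalg_card_finrank {p : ℕ} [Fact p.Prime] {V : Type*} [AddCommGroup V]
    [Module (ZMod p) V] [Finite V] (hV : Nat.card V ≤ p ^ 2) (N : Submodule (ZMod p) V)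
    (h0 : N ≠ ⊥) (h1 : N ≠ ⊤) :
    Module.finrank (ZMod p) N = 1 ∧ Module.finrank (ZMod p) V = 2 := by
  have hp : 1 < p := (Fact.out : p.Prime).one_lt
  have : Module.Finite (ZMod p) V := Module.Finite.of_finite
  have hcard : Nat.card V = p ^ Module.finrank (ZMod p) V := by
    rw [Module.natCard_eq_pow_finrank (K := ZMod p) (V := V), Nat.card_zmod]
  have hle : Module.finrank (ZMod p) V ≤ 2 := by
    rw [hcard] at hV
    exact (Nat.pow_le_pow_iff_right hp).mp hV
  have hlt : Module.finrank (ZMod p) N < Module.finrank (ZMod p) V := Submodule.finrank_lt h1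
  have hpos : 0 < Module.finrank (ZMod p) N := by
    rcases Nat.eq_zero_or_pos (Module.finrank (ZMod p) N) with h | h
    · exact absurd (Submodule.finrank_eq_zero.mp h) h0
    · exact h
  omega

theorem linalg_card {p : ℕ} [Fact p.Prime] {V : Type*} [AddCommGroup V] [Module (ZMod p) V]
    [Finite V] (hV : Nat.card V ≤ p ^ 2) (N : Submodule (ZMod p) V) (h0 : N ≠ ⊥) (h1 : N ≠ ⊤) :
    Nat.card N = p := by
  have : Module.Finite (ZMod p) V := Module.Finite.of_finite
  rw [Module.natCard_eq_pow_finrank (K := ZMod p) (V := N), Nat.card_zmod,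
    (linalg_card_finrank hV N h0 h1).1, pow_one]

theorem linalg_unipotent {p : ℕ} [Fact p.Prime] {V : Type*} [AddCommGroup V] [Module (ZMod p) V]
    [Finite V] (hV : Nat.card V ≤ p ^ 2) (N : Submodule (ZMod p) V) (h0 : N ≠ ⊥) (h1 : N ≠ ⊤)
    (s : V →+ V) (hs : ∀ x ∈ N, s x ∈ N) (hu : ∀ y : V, s (s y - y) = s y - y) :
    (∀ x ∈ N, s x = x) ∧ ∀ y : V, s y - y ∈ N := by
  have : Module.Finite (ZMod p) V := Module.Finite.of_finite
  obtain ⟨hN1, hV2⟩ := linalg_card_finrank hV N h0 h1
  -- a generator of `N`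
  obtain ⟨x₀, hx₀N, hx₀⟩ := (Submodule.ne_bot_iff N).mp h0
  have hgen : ∀ w : N, ∃ c : ZMod p, c • (⟨x₀, hx₀N⟩ : N) = w :=
    (finrank_eq_one_iff_of_nonzero' (⟨x₀, hx₀N⟩ : N)
      (fun h => hx₀ (congrArg Subtype.val h))).mp hN1
  have hgen' : ∀ x ∈ N, ∃ c : ZMod p, c • x₀ = x := by
    intro x hx
    obtain ⟨c, hc⟩ := hgen ⟨x, hx⟩
    exact ⟨c, congrArg Subtype.val hc⟩
  -- `s` fixes the generator
  have hsx₀ : s x₀ = x₀ := by
    obtain ⟨c, hc⟩ := hgen' (s x₀) (hs x₀ hx₀N)
    have h2 := hu x₀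
    rw [← hc] at h2
    have h3 : c • x₀ - x₀ = (c - 1) • x₀ := by rw [sub_smul, one_smul]
    rw [h3, ZMod.map_smul, ← hc, smul_smul] at h2
    have h4 : ((c - 1) * (c - 1)) • x₀ = 0 := by
      have : ((c - 1) * c - (c - 1)) • x₀ = 0 := by rw [sub_smul, h2, sub_self]
      rw [← this]; congr 1; ring
    rcases smul_eq_zero.mp h4 with h5 | h5
    · have hc1 : c = 1 := by
        rcases mul_self_eq_zero.mp h5 with h6
        exact sub_eq_zero.mp h6
      rw [← hc, hc1, one_smul]
    · exact absurd h5 hx₀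
  have hfixN : ∀ x ∈ N, s x = x := by
    intro x hx
    obtain ⟨c, rfl⟩ := hgen' x hx
    rw [ZMod.map_smul, hsx₀]
  refine ⟨hfixN, ?_⟩
  intro y
  by_contra hz
  -- the fixed submodule of `s`
  let F : Submodule (ZMod p) V :=
    LinearMap.ker (s.toZModLinearMap p - LinearMap.id)
  have hmemF : ∀ v : V, v ∈ F ↔ s v = v := by
    intro v
    simp only [F, LinearMap.mem_ker, LinearMap.sub_apply, LinearMap.id_apply,
      AddMonoidHom.coe_toZModLinearMap, sub_eq_zero]
  have hNF : N < F := by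
    refine lt_of_le_of_ne (fun x hx => (hmemF x).mpr (hfixN x hx)) ?_
    intro h
    apply hz
    rw [h]
    exact (hmemF _).mpr (hu y)
  have hlt := Submodule.finrank_lt_finrank_of_lt hNF
  have hFtop : F = ⊤ := by
    apply Submodule.eq_top_of_finrank_eq
    have hle : Module.finrank (ZMod p) F ≤ Module.finrank (ZMod p) V := Submodule.finrank_le F
    omega
  have hy : s y = y := (hmemF y).mp (by rw [hFtop]; exact Submodule.mem_top)
  apply hz
  rw [hy, sub_self]
  exact N.zero_mem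

end Fermat.Agent.S13.GlueAlt
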